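import Fermat.Agent.CondLev.Node

/-!
# Inertia fixes torsion points on the identity component
-/

set_option autoImplicit false
set_option linter.unusedSectionVars false
set_option linter.unusedVariables false

namespace Fermat.Agent.CondLev

open Fermat.Agent.ECRed OrdFn
open WeierstrassCurve WeierstrassCurve.Affine WeierstrassCurve.Affine.Point

variable {K : Type*} [Field K] [DecidableEq K] [Algebra ℚ K] {W : Affine ℚ} {v : OrdFn K}

theorem fixed_comp_zero' (hc : IntCoeff W v) {κ : KummerLine (W⁄K).Point K} {r : ℚ}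
    (hκ : κ = (KummerLine.ofCurve (W⁄K)).translate (algebraMap ℚ K r))
    (hr : v.Ge 0 (algebraMap ℚ K r)) {m : ℝ} (h : κ.MultAt v m)
    {σ : K ≃ₐ[ℚ] K} (hσ : ∀ z, v.Ge 0 z → v.Gt 0 (σ z - z))
    {n : ℕ} (hn : v.Eq 0 (n : K)) (hodd : Odd n) {P : (W⁄K).Point} (hP : n • P = 0)
    (hcomp : κ.comp v P = 0) : σ • P = P := by
  by_cases hP0 : P = 0
  · rw [hP0, gal_smul_zero]
  have hx := KummerLine.comp_eq h hn hodd hP0 hP
  rw [hcomp] at hx
  have h2P := KummerLine.two_ne hodd hP0 hP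
  obtain ⟨e0, e⟩ := κ.dup hP0 h2P
  have h2u := KummerLine.unit_double h hn hodd hP0 hP hx
  have hphi : v.Eq 0 (κ.phi (κ.N P)) := by
    rw [KummerLine.phi_eq_F2]
    have := KummerLine.F2_lt h hx hx le_rfl le_rfl (by linarith [h.pos])
    simpa using this
  have hpsi : v.Eq 0 (κ.psi (κ.N P)) := by
    rw [← e, mul_comm] at hphi
    simpa using hphi.of_mul_eq h2u
  have heta : v.Eq 0 (eta P) := by
    have e1 := eta_sq_translate hκ hP0
    have h0 : eta P ≠ 0 := by
      intro h0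
      rw [h0] at e1
      exact hpsi.ne (by rw [← e1]; ring)
    refine ⟨h0, ?_⟩
    have := hpsi.2
    rw [← e1, ord_pow h0] at this
    push_cast at this
    linarith
  by_contra hne
  have hint' : v.Ge 0 (κ.N (σ • P - P)) :=
    KummerLine.integral_of_torsion h.integral hn (sub_ne_zero.mpr hne)
      (KummerLine.sub_torsion (smul_torsion σ hP) hP)
  have hNtr : ∀ Q : (W⁄K).Point, Q ≠ 0 →
      (KummerLine.ofCurve (W⁄K)).N Q = κ.N Q + algebraMap ℚ K r := by
    intro Q hQ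
    rw [hκ]
    simp only [KummerLine.translate]
    rw [(KummerLine.ofCurve (W⁄K)).D_ne Q hQ]
    ring
  have hint : v.Ge 0 ((KummerLine.ofCurve (W⁄K)).N (σ • P - P)) := by
    rw [hNtr _ (sub_ne_zero.mpr hne)]
    exact hint'.add hr
  have hxge : v.Ge 0 ((KummerLine.ofCurve (W⁄K)).N P) := by
    rw [hNtr _ hP0]
    exact hx.ge.add hr
  rcases P with _ | ⟨x, y, hxy⟩
  · exact hP0 rfl
  have hNx : (KummerLine.ofCurve (W⁄K)).N (Point.some x y hxy) = x := xN_some hxy
  rw [hNx] at hxge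
  have hy : v.Ge 0 y := y_integral hc hxy.1 hxge
  obtain ⟨h', hs⟩ := smul_some σ hxy
  rw [hs] at hne hint
  have hδ := hσ x hxge
  have hε := hσ y hy
  have hη : eta (Point.some x y hxy) = 2 * y + (W⁄K).a₁ * x + (W⁄K).a₃ := by
    simp only [eta, negY]; ring
  rw [hη] at heta
  by_cases hxx : σ x = x
  · have hYY := Y_eq_of_X_eq h'.1 hxy.1 hxx
    rcases hYY with hYY | hYY
    · apply hne
      simp only [hxx, hYY]
    · have : v.Gt 0 (-(2 * y + (W⁄K).a₁ * x + (W⁄K).a₃)) := by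
        have e5 : -(2 * y + (W⁄K).a₁ * x + (W⁄K).a₃) = σ y - y := by
          rw [hYY, negY]; ring
        rw [e5]; exact hε
      exact heta.neg.not_gt this
  · have hf := xN_sub_formula h' hxy hxx
    have h5 : v.Gt 0 ((KummerLine.ofCurve (W⁄K)).N
        (Point.some (σ x) (σ y) h' - Point.some x y hxy) * (σ x - x) ^ 2) := by
      refine hint.zero_mul_gt ?_
      rw [pow_two]
      simpa using hδ.mul_ge hδ.ge
    have h6 : v.Eq 0 ((KummerLine.ofCurve (W⁄K)).N
        (Point.some (σ x) (σ y) h' - Point.some x y hxy) * (σ x - x) ^ 2) := by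
      have e7 : (KummerLine.ofCurve (W⁄K)).N
          (Point.some (σ x) (σ y) h' - Point.some x y hxy) * (σ x - x) ^ 2 =
          (2 * y + (W⁄K).a₁ * x + (W⁄K).a₃) ^ 2 +
          ((σ y - y) * (2 * (2 * y + (W⁄K).a₁ * x + (W⁄K).a₃) + (σ y - y)) +
            (σ x - x) * ((W⁄K).a₁ * (2 * y + (W⁄K).a₁ * x + (W⁄K).a₃ + (σ y - y)) -
            ((W⁄K).a₂ + 2 * x + (σ x - x)) * (σ x - x))) := by
        refine hf.trans ?_
        ring
      rw [e7]
      have h8 : v.Eq 0 ((2 * y + (W⁄K).a₁ * x + (W⁄K).a₃) ^ 2) := by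
        simpa using heta.pow_two
      refine h8.add_gt (Gt.add ?_ ?_)
      · have g1 : v.Ge 0 (2 * (2 * y + (W⁄K).a₁ * x + (W⁄K).a₃) + (σ y - y)) :=
          ((ge_ofNat 2).zero_mul heta.ge).add hε.ge
        simpa using hε.mul_ge g1
      · have g1 : v.Ge 0 ((W⁄K).a₁ * (2 * y + (W⁄K).a₁ * x + (W⁄K).a₃ + (σ y - y)) -
            ((W⁄K).a₂ + 2 * x + (σ x - x)) * (σ x - x)) := by
          refine (hc.a₁.zero_mul (heta.ge.add hε.ge)).sub (Ge.zero_mul ?_ hδ.ge)
          exact (hc.a₂.add ((ge_ofNat 2).zero_mul hxge)).add hδ.ge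
        simpa using hδ.mul_ge g1
    exact h6.not_gt h5

end Fermat.Agent.CondLev
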