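import Fermat.Agent.CondLev.Fixed
import Fermat.Agent.ECFrob.Qbar

/-!
# Frobenius at a place of multiplicative reduction acts as `± q` on the identity component
-/

set_option autoImplicit false
set_option linter.unusedSectionVars false
set_option linter.unusedVariables false

namespace Fermat.Agent.CondLev

open Fermat.Agent.ECRed OrdFn

section Field

variable {k : Type*} [Field k]

theorem step_alg {b u a x y w z : k} (hb : b ≠ 0) (hu : u ≠ 0) (ha : a ≠ 0)
    (hx : x * (a - 1) ^ 2 = b * a) (hy : y * (u - 1) ^ 2 = b * u)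
    (hw : w * (a - u) ^ 2 = b * a * u)
    (h : (x - y) ^ 2 * (z + w) = 2 * (x + y) * (x * y) + b * (x * y)) (hxy : x ≠ y) :
    z * (a * u - 1) ^ 2 = b * (a * u) := by
  have ha1 : a - 1 ≠ 0 := by
    intro h0
    rw [h0] at hx
    exact mul_ne_zero hb ha (by rw [← hx]; ring)
  have hu1 : u - 1 ≠ 0 := by
    intro h0
    rw [h0] at hy
    exact mul_ne_zero hb hu (by rw [← hy]; ring)
  have hau : a - u ≠ 0 := by
    intro h0
    rw [h0] at hw
    exact mul_ne_zero (mul_ne_zero hb ha) hu (by rw [← hw]; ring)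
  have hx' : x = b * a / (a - 1) ^ 2 := by
    rw [eq_div_iff (pow_ne_zero 2 ha1)]; exact hx
  have hy' : y = b * u / (u - 1) ^ 2 := by
    rw [eq_div_iff (pow_ne_zero 2 hu1)]; exact hy
  have hw' : w = b * a * u / (a - u) ^ 2 := by
    rw [eq_div_iff (pow_ne_zero 2 hau)]; exact hw
  have hd : x - y = -(b * (a * u - 1) * (a - u)) / ((a - 1) ^ 2 * (u - 1) ^ 2) := by
    rw [hx', hy']
    field_simp
    ring
  have hau1 : a * u - 1 ≠ 0 := by
    intro h0
    apply hxy
    rw [← sub_eq_zero, hd, h0]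
    ring
  have hd0 : (x - y) ^ 2 ≠ 0 := pow_ne_zero 2 (sub_ne_zero.mpr hxy)
  have hz : z = (2 * (x + y) * (x * y) + b * (x * y)) / (x - y) ^ 2 - w := by
    rw [eq_sub_iff_add_eq, eq_div_iff hd0, mul_comm]
    exact h
  rw [hz, hd, hw', hx', hy']
  field_simp
  ring

theorem dup_alg {b u x z : k} (hb : b ≠ 0) (hu : u ≠ 0) (hx0 : x ≠ 0)
    (hx : x * (u - 1) ^ 2 = b * u) (h : (4 * x ^ 3 + b * x ^ 2) * z = x ^ 4) :
    z * (u ^ 2 - 1) ^ 2 = b * u ^ 2 := by
  have hu1 : u - 1 ≠ 0 := by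
    intro h0
    rw [h0] at hx
    exact mul_ne_zero hb hu (by rw [← hx]; ring)
  have h1 : (4 * x + b) * z = x ^ 2 := by
    apply mul_left_cancel₀ (pow_ne_zero 2 hx0)
    linear_combination h
  have h2 : (4 * x + b) * (u - 1) ^ 2 = b * (u + 1) ^ 2 := by
    linear_combination 4 * hx
  have h3 : b * ((u + 1) ^ 2 * (u - 1) ^ 2 * z) = b * (b * u ^ 2) := by
    linear_combination (u - 1) ^ 4 * h1 - z * (u - 1) ^ 2 * h2 + (x * (u - 1) ^ 2 + b * u) * hx
  have h4 := mul_left_cancel₀ hb h3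
  linear_combination h4

end Field

end Fermat.Agent.CondLev
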