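import Fermat.Agent.ECRed.Comp2
import Fermat.Agent.ECRed.Two

/-!
# Multiplicative reduction: the node, and counting torsion points on the identity component
-/

set_option autoImplicit false
set_option linter.unusedSectionVars false
set_option linter.unusedVariables false

namespace Fermat.Agent.CondLev

open Fermat.Agent.ECRed OrdFn

section Algebra

variable {K : Type*} [Field K] [CharZero K]

theorem node_alg {b₂ b₄ b₆ b₈ : K} (hrel : 4 * b₈ = b₂ * b₆ - b₄ ^ 2)
    (hc : b₂ ^ 2 - 24 * b₄ ≠ 0) {r D : K} (hr : r = (18 * b₆ - b₂ * b₄) / (b₂ ^ 2 - 24 * b₄))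
    (hD : D = -b₂ ^ 2 * b₈ - 8 * b₄ ^ 3 - 27 * b₆ ^ 2 + 9 * b₂ * b₄ * b₆) :
    b₄ + r * b₂ + 6 * r ^ 2 = -72 * (D / (b₂ ^ 2 - 24 * b₄) ^ 2) ∧
    b₆ + 2 * r * b₄ + r ^ 2 * b₂ + 4 * r ^ 3 =
      -4 * (b₂ + 12 * r) * (D / (b₂ ^ 2 - 24 * b₄) ^ 2) ∧
    (b₂ + 12 * r) ^ 2 = (b₂ ^ 2 - 24 * b₄) - 1728 * (D / (b₂ ^ 2 - 24 * b₄) ^ 2) := by
  set c := b₂ ^ 2 - 24 * b₄ with hcdef
  set E := D / c ^ 2 with hE
  have hE' : E * c ^ 2 = D := by rw [hE, div_mul_cancel₀ _ (pow_ne_zero 2 hc)]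
  have hr' : r * c = 18 * b₆ - b₂ * b₄ := by rw [hr, div_mul_cancel₀ _ hc]
  have h3 : c ^ 3 ≠ 0 := pow_ne_zero 3 hc
  have h2 : c ^ 2 ≠ 0 := pow_ne_zero 2 hc
  refine ⟨?_, ?_, ?_⟩
  · apply mul_left_cancel₀ h2
    linear_combination (c * b₂ + 6 * (r * c + (18 * b₆ - b₂ * b₄))) * hr' + 72 * hE' + 72 * hD +
      (b₄ * (c + b₂ ^ 2 - 24 * b₄) + (18 * b₆ - b₂ * b₄) * b₂) * hcdef - 18 * b₂ ^ 2 * hrel
  · apply mul_left_cancel₀ h3
    linear_combination (exp := 1) (2 * b₄ * c ^ 2 + b₂ * c * (r * c + (18 * b₆ - b₂ * b₄)) +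
      4 * ((r * c) ^ 2 + (r * c) * (18 * b₆ - b₂ * b₄) + (18 * b₆ - b₂ * b₄) ^ 2) +
      48 * D) * hr' + 4 * (b₂ * c + 12 * (r * c)) * hE' + 4 * (b₂ * c + 12 * (18 * b₆ - b₂ * b₄)) * hD
      + (b₂ * c + 12 * (18 * b₆ - b₂ * b₄)) * (-b₂ ^ 2 * hrel)
  · apply mul_left_cancel₀ h2
    linear_combination (12 * (2 * b₂ * c + 12 * (r * c) + 12 * (18 * b₆ - b₂ * b₄))) * hr' +
      1728 * hE' + 1728 * hD - 432 * b₂ ^ 2 * hrel

end Algebra

variable {G : Type*} [AddCommGroup G] {K : Type*} [Field K] [CharZero K] {κ : KummerLine G K}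
  {v : OrdFn K} {m : ℝ}

/-- the `x`-coordinate of the node (approximately) -/
def nodeX (κ : KummerLine G K) : K := (18 * κ.b₆ - κ.b₂ * κ.b₄) / (κ.b₂ ^ 2 - 24 * κ.b₄)

theorem multAt_node (hb : κ.Integral v) (hm : 0 < m) (hc : v.Eq 0 (κ.b₂ ^ 2 - 24 * κ.b₄))
    (hΔ : v.Eq (2 * m) κ.disc) : (κ.translate (nodeX κ)).MultAt v m := by
  obtain ⟨e4, e6, e2⟩ := node_alg κ.rel_b hc.ne (r := nodeX κ) (D := κ.disc) rfl rfl
  set t : K := κ.disc / (κ.b₂ ^ 2 - 24 * κ.b₄) ^ 2 with ht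
  have hint : ∀ (n : ℕ) [n.AtLeastTwo], v.Ge 0 (OfNat.ofNat n : K) := fun n _ => ge_ofNat n
  have htv : v.Eq (2 * m) t := by
    have h1 := hΔ.mul (hc.pow_two).inv
    rw [ht, div_eq_mul_inv]
    simpa using h1
  have hb2 : v.Eq 0 (κ.b₂ + 12 * nodeX κ) := by
    have h1 : v.Eq 0 ((κ.b₂ + 12 * nodeX κ) ^ 2) := by
      rw [e2]
      refine hc.sub_gt ?_
      exact ((hint 1728).mul htv.ge).gt (by linarith)
    have h0 : κ.b₂ + 12 * nodeX κ ≠ 0 := fun h => h1.ne (by rw [h]; ring)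
    refine ⟨h0, ?_⟩
    have h2 := h1.2
    rw [ord_pow h0] at h2
    push_cast at h2
    linarith
  have h4 : v.Ge (2 * m) (κ.translate (nodeX κ)).b₄ := by
    show v.Ge (2 * m) (κ.b₄ + nodeX κ * κ.b₂ + 6 * nodeX κ ^ 2)
    rw [e4, neg_mul]
    simpa using ((hint 72).mul htv.ge).neg
  have h6 : v.Ge (2 * m) (κ.translate (nodeX κ)).b₆ := by
    show v.Ge (2 * m) (κ.b₆ + 2 * nodeX κ * κ.b₄ + nodeX κ ^ 2 * κ.b₂ + 4 * nodeX κ ^ 3)
    rw [e6]
    have := (((hint 4).neg.mul hb2.ge).mul htv.ge)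
    simpa using this
  refine ⟨hm, hb2, h4.mono (by linarith), h6, ?_⟩
  have hrel := (κ.translate (nodeX κ)).rel_b
  have e8 : (κ.translate (nodeX κ)).b₈ = -((κ.b₂ + 12 * nodeX κ) ^ 2 * t) - 1296 * t ^ 2 := by
    have h1 : (4 : K) ≠ 0 := by norm_num
    apply mul_left_cancel₀ h1
    rw [hrel]
    change (κ.b₂ + 12 * nodeX κ) *
      (κ.b₆ + 2 * nodeX κ * κ.b₄ + nodeX κ ^ 2 * κ.b₂ + 4 * nodeX κ ^ 3) -
      (κ.b₄ + nodeX κ * κ.b₂ + 6 * nodeX κ ^ 2) ^ 2 = _
    rw [e4, e6]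
    ring
  rw [e8]
  have h1 : v.Eq (2 * m) (-((κ.b₂ + 12 * nodeX κ) ^ 2 * t)) := by
    have := (hb2.pow_two.mul htv).neg
    simpa using this
  refine h1.sub_gt ?_
  have := (hint 1296).mul htv.ge.pow_two
  exact this.gt (by linarith)

section Count

open Classical in
/-- the number of points with component zero -/
theorem card_comp_zero (h : κ.MultAt v m) {n : ℕ} (hn : v.Eq 0 (n : K)) (hodd : Odd n)
    (T : Finset G) (hT : ∀ P, P ∈ T ↔ n • P = 0) (hcard : T.card = n ^ 2) :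
    n ≤ (T.filter fun P => κ.comp v P = 0).card := by
  set H := T.filter fun P => κ.comp v P = 0 with hH
  have hn0 : 0 < n := hodd.pos
  have hm := h.pos
  have hnR : (0 : ℝ) < n := by exact_mod_cast hn0
  -- the index of the component
  have hidx : ∀ P ∈ T, ∃ j : ℕ, j < n / 2 + 1 ∧ n * κ.comp v P = 2 * m * j := by
    intro P hP
    rw [hT] at hP
    obtain ⟨j, hj⟩ := KummerLine.comp_torsion h hn hodd hP
    obtain ⟨h0, h1⟩ := KummerLine.comp_range h hn hodd hP
    have h2 : (0 : ℝ) ≤ 2 * m * j := by rw [← hj]; positivity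
    have h3 : (0 : ℝ) ≤ j := by
      by_contra hlt
      push Not at hlt
      nlinarith
    have h4 : (0 : ℤ) ≤ j := by exact_mod_cast h3
    obtain ⟨i, rfl⟩ := Int.eq_ofNat_of_zero_le h4
    refine ⟨i, ?_, by exact_mod_cast hj⟩
    have h5 : 2 * m * (i : ℝ) < n * m := by
      have : (n : ℝ) * κ.comp v P < n * m := mul_lt_mul_of_pos_left h1 hnR
      rw [hj] at this
      exact_mod_cast this
    have h6 : (2 * i : ℝ) < n := by
      by_contra hge
      push Not at hge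
      nlinarith
    have h7 : 2 * i < n := by exact_mod_cast h6
    omega
  -- representatives
  let rep : ℕ → G := fun j =>
    if hj : ∃ P ∈ T, n * κ.comp v P = 2 * m * (j : ℝ) then hj.choose else 0
  have hrep : ∀ j : ℕ, (∃ P ∈ T, n * κ.comp v P = 2 * m * (j : ℝ)) →
      rep j ∈ T ∧ n * κ.comp v (rep j) = 2 * m * (j : ℝ) := by
    intro j hj
    simp only [rep, dif_pos hj]
    exact hj.choose_spec
  have hcover : T ⊆ (Finset.range (n / 2 + 1)).biUnion (fun j =>
      if j = 0 then H else H.image (fun x => rep j + x) ∪ H.image (fun x => -rep j + x)) := by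
    intro P hP
    obtain ⟨j, hj, hjP⟩ := hidx P hP
    rw [Finset.mem_biUnion]
    refine ⟨j, Finset.mem_range.mpr hj, ?_⟩
    split_ifs with hj0
    · subst hj0
      rw [hH, Finset.mem_filter]
      refine ⟨hP, ?_⟩
      simp only [Nat.cast_zero, mul_zero, mul_eq_zero, hnR.ne', false_or] at hjP
      exact hjP
    · obtain ⟨hr1, hr2⟩ := hrep j ⟨P, hP, hjP⟩
      have heq : κ.comp v (rep j) = κ.comp v P := by
        apply mul_left_cancel₀ hnR.ne'
        rw [hr2, hjP]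
      have hpos : 0 < κ.comp v P := by
        have h1 : (0 : ℝ) < 2 * m * j := by
          have : (0 : ℝ) < j := by exact_mod_cast Nat.pos_of_ne_zero hj0
          positivity
        rw [← hjP] at h1
        by_contra hle
        push Not at hle
        nlinarith
      have hPn := (hT P).mp hP
      have hrn := (hT _).mp hr1
      rw [Finset.mem_union, Finset.mem_image, Finset.mem_image]
      rcases KummerLine.comp_rel h hn hodd hPn hrn hpos with ⟨h1, -⟩ | ⟨h1, -⟩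
      · right
        refine ⟨P + rep j, ?_, by abel⟩
        rw [hH, Finset.mem_filter, hT]
        refine ⟨by rw [smul_add, hPn, hrn, add_zero], ?_⟩
        rw [h1, heq, sub_self, abs_zero]
      · left
        refine ⟨P - rep j, ?_, by abel⟩
        rw [hH, Finset.mem_filter, hT]
        refine ⟨by rw [smul_sub, hPn, hrn, sub_zero], ?_⟩
        rw [h1, heq, sub_self, abs_zero]
  have h1 := (Finset.card_le_card hcover).trans Finset.card_biUnion_le
  have h2 : ∑ j ∈ Finset.range (n / 2 + 1), (if j = 0 then H else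
      H.image (fun x => rep j + x) ∪ H.image (fun x => -rep j + x)).card ≤ n * H.card := by
    rw [Finset.sum_range_succ']
    have h3 : ∀ j ∈ Finset.range (n / 2), (if j + 1 = 0 then H else
        H.image (fun x => rep (j + 1) + x) ∪ H.image (fun x => -rep (j + 1) + x)).card ≤
        2 * H.card := by
      intro j _
      rw [if_neg (Nat.succ_ne_zero j)]
      refine (Finset.card_union_le _ _).trans ?_
      have a1 := Finset.card_image_le (s := H) (f := fun x => rep (j + 1) + x)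
      have a2 := Finset.card_image_le (s := H) (f := fun x => -rep (j + 1) + x)
      omega
    have h4 := Finset.sum_le_sum h3
    rw [Finset.sum_const, Finset.card_range, smul_eq_mul] at h4
    rw [if_pos rfl]
    obtain ⟨i, hi⟩ := hodd
    have h5 : n / 2 = i := by omega
    rw [h5] at h4 ⊢
    rw [hi]
    calc _ ≤ i * (2 * H.card) + H.card := Nat.add_le_add_right h4 _
      _ = (2 * i + 1) * H.card := by ring
  rw [hcard] at h1
  have h3 := h1.trans h2
  rw [pow_two] at h3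
  exact Nat.le_of_mul_le_mul_left h3 hn0

end Count

end Fermat.Agent.CondLev
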